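import Mathlib
import Fermat.Agent.H05_Frob
import Fermat.Agent.CC.GQ
import Fermat.Agent.TW.Val2

/-!
# Henselian local fields inside `ℚbar`

`ZK A K` is the fixed field of `D_A ∩ G_K`.
-/

set_option autoImplicit false
set_option linter.style.haveILetI false
set_option linter.unusedSectionVars false

noncomputable section

open Fermat.Agent.H05
open scoped Pointwise

namespace Fermat.Agent.LF

export Fermat.Agent.CC (Qb GQ)

/-! ### transitivity -/

/-- A closed subgroup acts transitively on the places over a given place of its fixed field. -/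
theorem exists_smul_eq_of_closed {L : Type*} [Field L] [CharZero L] [IsGalois ℚ L]
    {A A' : ValuationSubring L} {p : ℕ} (hp : p.Prime) (hA : A.LiesOverPrime p)
    (H : Subgroup (L ≃ₐ[ℚ] L)) (hH : IsClosed (H : Set (L ≃ₐ[ℚ] L)))
    (h : ∀ x : integralClosure ℤ L, (∀ σ ∈ H, σ • x = x) → (x ∈ center A ↔ x ∈ center A')) :
    ∃ σ ∈ H, σ • A = A' := by
  classical
  haveI : Fact p.Prime := ⟨hp⟩
  let B := integralClosure ℤ L
  letI : TopologicalSpace B := ⊥
  haveI : DiscreteTopology B := ⟨rfl⟩
  haveI : ContinuousSMul (L ≃ₐ[ℚ] L) B := by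
    rw [continuousSMul_iff_stabilizer_isOpen]
    intro x
    have h1 := stabilizer_isOpen_of_isIntegral (K := ℚ) (L := L) (x : L)
    convert h1 using 1
    ext σ
    simp only [SetLike.mem_coe, MulAction.mem_stabilizer_iff, Subtype.ext_iff]
    rfl
  let B' : Subalgebra ℤ B := FixedPoints.subalgebra ℤ B H
  haveI : CompactSpace H := isCompact_iff_compactSpace.mp hH.isCompact
  haveI : ContinuousSMul H B := by
    constructor
    exact (continuous_smul (M := L ≃ₐ[ℚ] L) (X := B)).comp
      ((continuous_subtype_val.comp continuous_fst).prodMk continuous_snd)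
  haveI : SMulCommClass H B' B := by
    constructor
    intro h b x
    rw [Subalgebra.smul_def, Subalgebra.smul_def, smul_eq_mul, smul_eq_mul, smul_mul',
      b.2 h]
  haveI : Algebra.IsInvariant B' B H := by
    constructor
    intro b hb
    exact ⟨⟨b, hb⟩, rfl⟩
  have step1 : (center A).under B' = (center A').under B' := by
    ext ⟨x, hx⟩
    exact h x fun σ hσ => hx ⟨σ, hσ⟩
  obtain ⟨h₁, hh₁⟩ := Algebra.IsInvariant.exists_smul_of_under_eq_of_profinite
    (A := B') (B := B) (G := H) (center A) (center A') step1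
  refine ⟨h₁, h₁.2, ?_⟩
  apply eq_of_center_eq hp ((liesOverPrime_smul_iff _ A p).mpr hA)
  rw [center_smul]
  exact hh₁.symm

/-! ### the decomposition group is closed -/

theorem isClopen_apply_mem (x : Qb) (T : Set Qb) : IsClopen {σ : GQ | σ x ∈ T} := by
  have hg := Fermat.Agent.H51.isGalois_Qbar
  have hopen : ∀ T : Set Qb, IsOpen {σ : GQ | σ x ∈ T} := by
    intro T
    rw [isOpen_iff_forall_mem_open]
    intro σ hσ
    have h1 := stabilizer_isOpen_of_isIntegral (K := ℚ) (L := Qb) x
    refine ⟨(fun τ => σ⁻¹ * τ) ⁻¹' (MulAction.stabilizer GQ x : Set GQ), ?_, ?_, ?_⟩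
    · intro τ hτ
      have h2 : (σ⁻¹ * τ) x = x := hτ
      have h3 : τ x = σ x := by
        calc τ x = σ ((σ⁻¹ * τ) x) := by
              rw [← AlgEquiv.mul_apply, mul_inv_cancel_left]
          _ = σ x := by rw [h2]
      change τ x ∈ T
      rw [h3]
      exact hσ
    · exact h1.preimage (continuous_const.mul continuous_id)
    · change (σ⁻¹ * σ) x = x
      rw [inv_mul_cancel, AlgEquiv.one_apply]
  refine ⟨?_, hopen T⟩
  have h2 : {σ : GQ | σ x ∈ T} = {σ : GQ | σ x ∈ Tᶜ}ᶜ := by
    ext σ
    simp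
  rw [h2]
  exact (hopen Tᶜ).isClosed_compl

theorem mem_dec_iff (A : ValuationSubring Qb) (σ : GQ) :
    σ ∈ A.decompositionSubgroup ℚ ↔ ∀ x, σ x ∈ A ↔ x ∈ A := by
  change σ • A = A ↔ _
  constructor
  · intro h x
    conv_lhs => rw [← h]
    exact ValuationSubring.smul_mem_pointwise_smul_iff
  · intro h
    ext x
    rw [ValuationSubring.mem_pointwise_smul_iff_inv_smul_mem, ← h]
    change σ (σ⁻¹ x) ∈ A ↔ x ∈ A
    rw [← AlgEquiv.mul_apply, mul_inv_cancel, AlgEquiv.one_apply]

theorem isClosed_dec (A : ValuationSubring Qb) :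
    IsClosed (A.decompositionSubgroup ℚ : Set GQ) := by
  have h : (A.decompositionSubgroup ℚ : Set GQ) =
      ⋂ x : Qb, {σ : GQ | σ x ∈ {y : Qb | y ∈ A ↔ x ∈ A}} := by
    ext σ
    rw [SetLike.mem_coe, mem_dec_iff, Set.mem_iInter]
    rfl
  rw [h]
  exact isClosed_iInter fun x => (isClopen_apply_mem x _).isClosed

/-! ### the local group and the local field -/

/-- the decomposition group of `A` in `G_K` -/
def DK (A : ValuationSubring Qb) (K : IntermediateField ℚ Qb) : Subgroup GQ :=
  A.decompositionSubgroup ℚ ⊓ K.fixingSubgroup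

/-- the (henselian) local field of `K` at `A` -/
def ZK (A : ValuationSubring Qb) (K : IntermediateField ℚ Qb) : IntermediateField ℚ Qb :=
  IntermediateField.fixedField (DK A K)

variable {A : ValuationSubring Qb} {K : IntermediateField ℚ Qb}

theorem mem_DK {σ : GQ} : σ ∈ DK A K ↔ σ ∈ A.decompositionSubgroup ℚ ∧ σ ∈ K.fixingSubgroup :=
  Iff.rfl

theorem DK_le_dec : DK A K ≤ A.decompositionSubgroup ℚ := inf_le_left

theorem DK_le_fix : DK A K ≤ K.fixingSubgroup := inf_le_right

theorem mem_ZK {x : Qb} : x ∈ ZK A K ↔ ∀ σ ∈ DK A K, σ x = x := by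
  rw [ZK, IntermediateField.mem_fixedField_iff]

theorem le_ZK : K ≤ ZK A K := fun x hx => by
  rw [mem_ZK]
  intro σ hσ
  exact (IntermediateField.mem_fixingSubgroup_iff K σ).mp hσ.2 x hx

theorem isClosed_DK : IsClosed (DK A K : Set GQ) := by
  have h1 : IsClosed (K.fixingSubgroup : Set GQ) := by
    have : (K.fixingSubgroup : Set GQ) = ⋂ x : K, {σ : GQ | σ (x : Qb) ∈ {y : Qb | y = x}} := by
      ext σ
      rw [SetLike.mem_coe, IntermediateField.mem_fixingSubgroup_iff, Set.mem_iInter]
      exact ⟨fun h x => h x x.2, fun h x hx => h ⟨x, hx⟩⟩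
    rw [this]
    exact isClosed_iInter fun x => (isClopen_apply_mem (x : Qb) _).isClosed
  exact (isClosed_dec A).inter h1

theorem fixingSubgroup_ZK : (ZK A K).fixingSubgroup = DK A K := by
  have hg := Fermat.Agent.H51.isGalois_Qbar
  exact InfiniteGalois.fixingSubgroup_fixedField (⟨DK A K, isClosed_DK⟩ : ClosedSubgroup GQ)

theorem DK_mono {F : IntermediateField ℚ Qb} (h : K ≤ F) : DK A F ≤ DK A K :=
  inf_le_inf le_rfl (IntermediateField.fixingSubgroup_antitone h)

theorem ZK_mono {F : IntermediateField ℚ Qb} (h : K ≤ F) : ZK A K ≤ ZK A F := by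
  intro x hx
  rw [mem_ZK] at hx ⊢
  exact fun σ hσ => hx σ (DK_mono h hσ)

/-- places of `ℚbar` with the same trace on `F` are conjugate over `F` -/
theorem exists_smul_eq_of_trace {A' : ValuationSubring Qb} {q : ℕ} (hq : q.Prime)
    (hA : A.LiesOverPrime q) (F : IntermediateField ℚ Qb)
    (h : ∀ x ∈ F, IsIntegral ℤ x → (x ∈ A.nonunits ↔ x ∈ A'.nonunits)) :
    ∃ σ ∈ F.fixingSubgroup, σ • A = A' := by
  have hg := Fermat.Agent.H51.isGalois_Qbar
  have h1 : IsClosed (F.fixingSubgroup : Set GQ) := by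
    have : (F.fixingSubgroup : Set GQ) = ⋂ x : F, {σ : GQ | σ (x : Qb) ∈ {y : Qb | y = x}} := by
      ext σ
      rw [SetLike.mem_coe, IntermediateField.mem_fixingSubgroup_iff, Set.mem_iInter]
      exact ⟨fun h x => h x x.2, fun h x hx => h ⟨x, hx⟩⟩
    rw [this]
    exact isClosed_iInter fun x => (isClopen_apply_mem (x : Qb) _).isClosed
  refine exists_smul_eq_of_closed hq hA F.fixingSubgroup h1 fun x hx => ?_
  have hxF : (x : Qb) ∈ F := by
    have h2 : (x : Qb) ∈ IntermediateField.fixedField F.fixingSubgroup := by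
      rw [IntermediateField.mem_fixedField_iff]
      intro σ hσ
      exact congrArg Subtype.val (hx σ hσ)
    rwa [InfiniteGalois.fixedField_fixingSubgroup] at h2
  rw [mem_center_iff, mem_center_iff]
  exact h x hxF x.2

end Fermat.Agent.LF
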