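import Mathlib
import Fermat.Agent.LF.Basic
import Fermat.Agent.S14Lib.Bridge1

/-!
# A number field is dense in its local fields
-/

set_option autoImplicit false
set_option linter.style.haveILetI false
set_option linter.unusedSectionVars false

noncomputable section

open Fermat.Agent.H05 Fermat.Agent.TW Filter
open scoped Pointwise NumberField

namespace Fermat.Agent.LF

variable {A : ValuationSubring Qb} {q : ℕ} {w : Qb → ℝ}

theorem ev_small (h : NVal A q w) {z : Qb} (hz : Bs w 0 z) (x : Qb) (t : ℝ) :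
    ∀ᶠ n : ℕ in atTop, ∀ v : Qb, Bl w 0 v → Bl w t (x * v * z ^ n) := by
  rcases hz with rfl | hz
  · filter_upwards [eventually_gt_atTop 0] with n hn v _
    rw [zero_pow hn.ne', mul_zero]
    exact NVal.zero t
  · have h1 : Tendsto (fun n : ℕ => w x + n * w z) atTop atTop :=
      tendsto_atTop_add_const_left _ _ (tendsto_natCast_atTop_atTop.atTop_mul_const hz)
    filter_upwards [h1.eventually_ge_atTop t] with n hn v hv
    have h2 : Bl w (w x) x := Or.inr le_rfl
    have h3 := h.mul (h.mul h2 hv) (h.pow (Or.inr le_rfl : Bl w (w z) z) n)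
    rw [add_zero] at h3
    exact NVal.mono hn h3

theorem Bs_of_nonunits (h : NVal A q w) {x : Qb} (hx : x ∈ A.nonunits) : Bs w 0 x :=
  h.nonunits_iff.1 hx

theorem Bl_of_integral (h : NVal A q w) {x : Qb} (hx : IsIntegral ℤ x) : Bl w 0 x :=
  h.mem_iff.1 (mem_of_isIntegral A hx)

theorem smul_nonunits_iff (σ : GQ) (A : ValuationSubring Qb) (x : Qb) :
    x ∈ (σ⁻¹ • A).nonunits ↔ σ x ∈ A.nonunits := by
  rw [ValuationSubring.mem_nonunits_iff_or, ValuationSubring.mem_nonunits_iff_or,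
    ValuationSubring.mem_pointwise_smul_iff_inv_smul_mem, inv_inv]
  have h1 : σ • x⁻¹ = (σ x)⁻¹ := map_inv₀ σ x
  rw [h1, map_eq_zero]

/-- two coprime conditions -/
theorem exists_sep (F : IntermediateField ℚ Qb) [NumberField F] {ι : Type*} [Fintype ι]
    (B : ι → ValuationSubring Qb) (hq : q.Prime) (hA : A.LiesOverPrime q)
    {q' : ι → ℕ} (hq' : ∀ i, (q' i).Prime) (hB : ∀ i, (B i).LiesOverPrime (q' i))
    (hne : ∀ i, ¬ ∀ x ∈ F, IsIntegral ℤ x → (x ∈ A.nonunits ↔ x ∈ (B i).nonunits)) :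
    ∃ a b : 𝓞 F, a + b = 1 ∧ ((a : F) : Qb) ∈ A.nonunits ∧
      ∀ i, ((b : F) : Qb) ∈ (B i).nonunits := by
  classical
  set P : Ideal (𝓞 F) := (center A).comap (S14Lib.iotaO F) with hP
  set Q : ι → Ideal (𝓞 F) := fun i => (center (B i)).comap (S14Lib.iotaO F) with hQ
  have hmem : ∀ (C : ValuationSubring Qb) (x : 𝓞 F),
      x ∈ (center C).comap (S14Lib.iotaO F) ↔ ((x : F) : Qb) ∈ C.nonunits := by
    intro C x
    rw [Ideal.mem_comap, mem_center_iff]
    rfl
  have hmax : ∀ (C : ValuationSubring Qb) (c : ℕ), c.Prime → C.LiesOverPrime c →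
      ((center C).comap (S14Lib.iotaO F)).IsMaximal := by
    intro C c hc hC
    have h1 : ((center C).comap (S14Lib.iotaO F)).IsPrime := Ideal.IsPrime.comap _
    refine h1.isMaximal ?_
    intro h0
    have h2 : ((c : ℕ) : 𝓞 F) ∈ (center C).comap (S14Lib.iotaO F) := by
      rw [hmem]
      have h3 : (((c : 𝓞 F) : F) : Qb) = (c : Qb) := by push_cast; rfl
      rw [h3]
      exact hC
    rw [h0, Ideal.mem_bot] at h2
    exact hc.ne_zero (by exact_mod_cast h2)
  have hPm := hmax A q hq hA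
  have hcop : ∀ i, IsCoprime P (Q i) := by
    intro i
    rw [Ideal.isCoprime_iff_sup_eq]
    have hQm := hmax (B i) (q' i) (hq' i) (hB i)
    apply hPm.coprime_of_ne hQm
    intro he
    apply hne i
    intro x hx hxi
    obtain ⟨y, hy⟩ := S14Lib.exists_iotaO_eq F (⟨x, hxi⟩ : integralClosure ℤ Qb) hx
    have hyx : ((y : F) : Qb) = x := congrArg Subtype.val hy
    rw [← hyx, ← hmem A y, ← hmem (B i) y]
    have he' : P = Q i := he
    change y ∈ P ↔ y ∈ Q i
    rw [he']
  have h1 : IsCoprime P (∏ i, Q i) := IsCoprime.prod_right fun i _ => hcop i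
  obtain ⟨a, ha, b, hb, hab⟩ := Ideal.isCoprime_iff_exists.mp h1
  refine ⟨a, b, hab, (hmem A a).mp ha, fun i => (hmem (B i) b).mp ?_⟩
  exact (Ideal.prod_le_inf.trans (Finset.inf_le (Finset.mem_univ i))) hb

theorem mem_of_fixed (K : IntermediateField ℚ Qb) {y : Qb}
    (hy : ∀ σ ∈ K.fixingSubgroup, σ y = y) : y ∈ K := by
  have hg := Fermat.Agent.H51.isGalois_Qbar
  have h2 : y ∈ IntermediateField.fixedField K.fixingSubgroup := by
    rw [IntermediateField.mem_fixedField_iff]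
    exact hy
  rwa [InfiniteGalois.fixedField_fixingSubgroup] at h2

/-- **Density** -/
theorem dense (hq : q.Prime) (hA : A.LiesOverPrime q) (h : NVal A q w)
    (K : IntermediateField ℚ Qb) [FiniteDimensional ℚ K] {x : Qb} (hx : x ∈ ZK A K) (t : ℝ) :
    ∃ y ∈ K, Bl w t (y - x) := by
  classical
  have hg := Fermat.Agent.H51.isGalois_Qbar
  have hxint : IsIntegral ℚ x := Algebra.IsIntegral.isIntegral x
  haveI : FiniteDimensional ℚ (IntermediateField.adjoin ℚ {x}) :=
    IntermediateField.adjoin.finiteDimensional hxint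
  set F : IntermediateField ℚ Qb := K ⊔ IntermediateField.adjoin ℚ {x} with hF
  have hKF : K ≤ F := le_sup_left
  have hxF : x ∈ F := by
    have : IntermediateField.adjoin ℚ {x} ≤ F := le_sup_right
    exact this (IntermediateField.mem_adjoin_simple_self ℚ x)
  have hFZ : F ≤ ZK A K := by
    rw [hF, sup_le_iff]
    refine ⟨le_ZK, ?_⟩
    rw [IntermediateField.adjoin_simple_le_iff]
    exact hx
  haveI : FiniteDimensional ℚ F := inferInstance
  haveI : NumberField F := ⟨⟩
  set G := K.fixingSubgroup with hG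
  set H := F.fixingSubgroup with hH
  have hHG : H ≤ G := IntermediateField.fixingSubgroup_antitone hKF
  have hHfix : ∀ σ ∈ H, ∀ z ∈ F, σ z = z := fun σ hσ z hz =>
    (IntermediateField.mem_fixingSubgroup_iff F σ).mp hσ z hz
  haveI := CC.fixingSubgroup_finiteIndex F
  haveI : (H.subgroupOf G).FiniteIndex := inferInstance
  haveI : Fintype (G ⧸ H.subgroupOf G) := Fintype.ofFinite _
  set f : G ⧸ H.subgroupOf G → GQ := fun c => ((Quotient.out c : G) : GQ) with hf
  have key : ∀ (g : G) (z : Qb), z ∈ F → f (QuotientGroup.mk g) z = (g : GQ) z := by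
    intro g z hz
    have h1 : (g⁻¹ * Quotient.out (QuotientGroup.mk g : G ⧸ H.subgroupOf G)) ∈ H.subgroupOf G := by
      rw [← QuotientGroup.eq]
      exact (QuotientGroup.out_eq' _).symm
    rw [Subgroup.mem_subgroupOf] at h1
    have h2 := hHfix _ h1 z hz
    have h3 := congrArg (g : GQ) h2
    rw [← AlgEquiv.mul_apply] at h3
    convert h3 using 2
    change _ = (g : GQ) * ((g : GQ)⁻¹ * ((Quotient.out (QuotientGroup.mk g : G ⧸ H.subgroupOf G) : G) : GQ))
    rw [mul_inv_cancel_left]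
  have hne : ∀ c : {c : G ⧸ H.subgroupOf G // f c ∉ H},
      ¬ ∀ z ∈ F, IsIntegral ℤ z → (z ∈ A.nonunits ↔ z ∈ ((f c.1)⁻¹ • A).nonunits) := by
    rintro ⟨c, hc⟩ hall
    obtain ⟨τ, hτ, hτA⟩ := exists_smul_eq_of_trace hq hA F hall
    apply hc
    have h1 : f c * τ ∈ DK A K := by
      refine ⟨?_, G.mul_mem (Quotient.out c : G).2 (hHG hτ)⟩
      change (f c * τ) • A = A
      rw [mul_smul, hτA, smul_inv_smul]
    have h2 : f c * τ ∈ H := by
      rw [hH, IntermediateField.mem_fixingSubgroup_iff]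
      exact fun z hz => mem_ZK.mp (hFZ hz) _ h1
    exact (H.mul_mem_cancel_right hτ).mp h2
  obtain ⟨a, b, hab, ha, hb⟩ := exists_sep F
    (fun c : {c : G ⧸ H.subgroupOf G // f c ∉ H} => (f c.1)⁻¹ • A) hq hA
    (q' := fun _ => q) (fun _ => hq) (fun c => (liesOverPrime_smul_iff _ A q).mpr hA) hne
  have hev : ∀ᶠ n : ℕ in atTop, (∀ v : Qb, Bl w 0 v → Bl w t (x * v * ((a : F) : Qb) ^ n)) ∧
      ∀ c : {c : G ⧸ H.subgroupOf G // f c ∉ H}, ∀ v : Qb, Bl w 0 v →
        Bl w t (f c.1 x * v * (f c.1 ((b : F) : Qb)) ^ n) := by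
    rw [eventually_and]
    refine ⟨ev_small h (Bs_of_nonunits h ha) x t, ?_⟩
    rw [eventually_all]
    intro c
    exact ev_small h (Bs_of_nonunits h ((smul_nonunits_iff _ A _).mp (hb c))) _ t
  obtain ⟨n, hn1, hn2⟩ := hev.exists
  have hcop : IsCoprime a b := ⟨1, 1, by rw [one_mul, one_mul, hab]⟩
  obtain ⟨u, v, huv⟩ := (hcop.pow (m := n) (n := n))
  have huv' : ((u : F) : Qb) * ((a : F) : Qb) ^ n + ((v : F) : Qb) * ((b : F) : Qb) ^ n = 1 := by
    have := congrArg (fun z : 𝓞 F => ((z : F) : Qb)) huv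
    push_cast at this
    exact this
  set β : Qb := x * ((v : F) : Qb) * ((b : F) : Qb) ^ n with hβ
  have hβF : β ∈ F := mul_mem (mul_mem hxF (v : F).2) (pow_mem (b : F).2 n)
  have hint : ∀ z : 𝓞 F, IsIntegral ℤ ((z : F) : Qb) := fun z =>
    (NumberField.RingOfIntegers.isIntegral_coe z).map (F.val.restrictScalars ℤ)
  have hu : Bl w 0 (-((u : F) : Qb)) := h.neg (Bl_of_integral h (hint u))
  refine ⟨∑ c, f c β, ?_, ?_⟩
  · apply mem_of_fixed
    intro σ hσ
    rw [map_sum]
    have h1 : ∀ c : G ⧸ H.subgroupOf G, σ (f c β) = f ((⟨σ, hσ⟩ : G) • c) β := by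
      intro c
      obtain ⟨g, rfl⟩ := QuotientGroup.mk_surjective c
      rw [key g β hβF]
      change _ = f (QuotientGroup.mk ((⟨σ, hσ⟩ : G) * g)) β
      rw [key _ β hβF]
      rfl
    rw [Finset.sum_congr rfl fun c _ => h1 c]
    exact Equiv.sum_comp (MulAction.toPerm (⟨σ, hσ⟩ : G)) (fun c => f c β)
  · have h1 : f (QuotientGroup.mk 1) β = β := by
      rw [key 1 β hβF]
      rfl
    rw [← Finset.add_sum_erase Finset.univ (fun c => f c β) (Finset.mem_univ (QuotientGroup.mk 1)),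
      h1, add_sub_right_comm]
    have h2 : β - x = x * (-((u : F) : Qb)) * ((a : F) : Qb) ^ n := by
      rw [hβ]
      linear_combination x * huv'
    refine h.add ?_ (h.sum _ _ fun c hc => ?_)
    · rw [h2]
      exact hn1 _ hu
    · have hcH : f c ∉ H := by
        intro hcon
        apply (Finset.mem_erase.mp hc).1
        have h3 := QuotientGroup.out_eq' c
        rw [← h3, eq_comm, QuotientGroup.eq, inv_one, one_mul, Subgroup.mem_subgroupOf]
        exact hcon
      have h3 := hn2 ⟨c, hcH⟩ (f c ((v : F) : Qb)) (Bl_of_integral h ((hint v).map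
        ((f c : GQ).toAlgHom.restrictScalars ℤ)))
      have h4 : f c β = f c x * f c ((v : F) : Qb) * (f c ((b : F) : Qb)) ^ n := by
        rw [hβ, map_mul, map_mul, map_pow]
      rw [h4]
      exact h3

/-- two places have different traces on `K` -/
def Indep (K : IntermediateField ℚ Qb) (A B : ValuationSubring Qb) : Prop :=
  ¬ ∀ x ∈ K, IsIntegral ℤ x → (x ∈ A.nonunits ↔ x ∈ B.nonunits)

/-- weak approximation in `K` -/
theorem weak_approx_K (K : IntermediateField ℚ Qb) [FiniteDimensional ℚ K] {ι : Type*} [Finite ι]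
    (B : ι → ValuationSubring Qb) {q' : ι → ℕ} (hq' : ∀ i, (q' i).Prime)
    (hB : ∀ i, (B i).LiesOverPrime (q' i)) {w : ι → Qb → ℝ} (h : ∀ i, NVal (B i) (q' i) (w i))
    (hne : ∀ i j, i ≠ j → Indep K (B i) (B j)) (x : ι → Qb) (hx : ∀ i, x i ∈ K) (t : ℝ) :
    ∃ y ∈ K, ∀ i, Bl (w i) t (y - x i) := by
  classical
  have := Fintype.ofFinite ι
  haveI : NumberField K := ⟨⟩
  have hsep : ∀ i, ∃ a b : 𝓞 K, a + b = 1 ∧ ((a : K) : Qb) ∈ (B i).nonunits ∧
      ∀ j : {j // j ≠ i}, ((b : K) : Qb) ∈ (B j.1).nonunits := fun i =>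
    exists_sep K (fun j : {j // j ≠ i} => B j.1) (hq' i) (hB i) (fun j => hq' j.1)
      (fun j => hB j.1) (fun j => hne i j.1 j.2.symm)
  choose a b hab ha hb using hsep
  have hev : ∀ᶠ n : ℕ in atTop,
      (∀ i, ∀ v : Qb, Bl (w i) 0 v → Bl (w i) t (x i * v * ((a i : K) : Qb) ^ n)) ∧
      (∀ i, ∀ j : {j // j ≠ i}, ∀ v : Qb, Bl (w j.1) 0 v →
        Bl (w j.1) t (x i * v * ((b i : K) : Qb) ^ n)) := by
    rw [eventually_and, eventually_all, eventually_all]
    refine ⟨fun i => ev_small (h i) (Bs_of_nonunits (h i) (ha i)) _ t, fun i => ?_⟩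
    rw [eventually_all]
    exact fun j => ev_small (h j.1) (Bs_of_nonunits (h j.1) (hb i j)) _ t
  obtain ⟨n, hn1, hn2⟩ := hev.exists
  have hcop : ∀ i, ∃ u v : 𝓞 K, u * a i ^ n + v * b i ^ n = 1 := fun i => by
    have h0 : IsCoprime (a i) (b i) := ⟨1, 1, by rw [one_mul, one_mul, hab i]⟩
    exact h0.pow (m := n) (n := n)
  choose u v huv using hcop
  have huv' : ∀ i, ((u i : K) : Qb) * ((a i : K) : Qb) ^ n +
      ((v i : K) : Qb) * ((b i : K) : Qb) ^ n = 1 := by
    intro i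
    have := congrArg (fun z : 𝓞 K => ((z : K) : Qb)) (huv i)
    push_cast at this
    exact this
  have hint : ∀ z : 𝓞 K, IsIntegral ℤ ((z : K) : Qb) := fun z =>
    (NumberField.RingOfIntegers.isIntegral_coe z).map (K.val.restrictScalars ℤ)
  refine ⟨∑ i, x i * ((v i : K) : Qb) * ((b i : K) : Qb) ^ n, ?_, fun i => ?_⟩
  · exact sum_mem fun i _ => mul_mem (mul_mem (hx i) (v i : K).2) (pow_mem (b i : K).2 n)
  · rw [← Finset.add_sum_erase Finset.univ _ (Finset.mem_univ i), add_sub_right_comm]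
    refine (h i).add ?_ ((h i).sum _ _ fun j hj => ?_)
    · have h2 : x i * ((v i : K) : Qb) * ((b i : K) : Qb) ^ n - x i =
          x i * (-((u i : K) : Qb)) * ((a i : K) : Qb) ^ n := by
        linear_combination x i * huv' i
      rw [h2]
      exact hn1 i _ ((h i).neg (Bl_of_integral (h i) (hint _)))
    · exact hn2 j ⟨i, fun he => (Finset.mem_erase.mp hj).1 he.symm⟩ _
        (Bl_of_integral (h i) (hint _))

/-- **weak approximation** in the local fields -/
theorem weak_approx (K : IntermediateField ℚ Qb) [FiniteDimensional ℚ K] {ι : Type*} [Finite ι]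
    (B : ι → ValuationSubring Qb) {q' : ι → ℕ} (hq' : ∀ i, (q' i).Prime)
    (hB : ∀ i, (B i).LiesOverPrime (q' i)) {w : ι → Qb → ℝ} (h : ∀ i, NVal (B i) (q' i) (w i))
    (hne : ∀ i j, i ≠ j → Indep K (B i) (B j)) (x : ι → Qb) (hx : ∀ i, x i ∈ ZK (B i) K) (t : ℝ) :
    ∃ y ∈ K, ∀ i, Bl (w i) t (y - x i) := by
  have h1 : ∀ i, ∃ y ∈ K, Bl (w i) t (y - x i) := fun i =>
    dense (hq' i) (hB i) (h i) K (hx i) t
  choose y hyK hy using h1
  obtain ⟨z, hz, hz'⟩ := weak_approx_K K B hq' hB h hne y hyK t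
  exact ⟨z, hz, fun i => (h i).Bl_trans (hz' i) (hy i)⟩

end Fermat.Agent.LF
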